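import Fermat.Agent.TraceSignature.Count
import Fermat.Agent.RealClosure.Orderings

/-!
# Roots, orderings and real places from trace forms
-/

set_option autoImplicit false
set_option linter.unusedSectionVars false

noncomputable section

open Polynomial FA.Pfister QuadraticMap QuadraticForm

namespace Fermat.Agent.TraceSignature

open Fermat.Agent.HilbertSeventeen Fermat.Agent.RealClosure

variable {K : Type*} [Field K] [LinearOrder K] [IsStrictOrderedRing K]

/-- Homomorphisms into an algebraically closed field, counted in an algebraic closure. -/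
theorem card_algHom_algClosed {A : Type*} [CommRing A] [Algebra K A] (pb : PowerBasis K A)
    (C : Type*) [Field C] [IsAlgClosed C] [Algebra K C] (g : A) :
    Nat.card {ψ : A →ₐ[K] C // ψ g ≠ 0} =
      Nat.card {ψ : A →ₐ[K] AlgebraicClosure K // ψ g ≠ 0} := by
  let ι : AlgebraicClosure K →ₐ[K] C := IsAlgClosed.lift
  let f : {ψ : A →ₐ[K] AlgebraicClosure K // ψ g ≠ 0} → {ψ : A →ₐ[K] C // ψ g ≠ 0} := fun ψ =>
    ⟨ι.comp ψ.1, fun e => ψ.2 (ι.toRingHom.injective (e.trans (map_zero ι.toRingHom).symm))⟩
  refine (Nat.card_congr (Equiv.ofBijective f ⟨?_, ?_⟩)).symm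
  · intro ψ ψ' e
    exact Subtype.ext (AlgHom.ext fun x => ι.toRingHom.injective
      (DFunLike.congr_fun (congrArg Subtype.val e) x))
  · rintro ⟨ψ, hψ⟩
    have hp := aeval_gen_eq_zero pb ψ
    have h0 : (minpoly K pb.gen).map (algebraMap K C) ≠ 0 :=
      Polynomial.map_ne_zero (minpoly.ne_zero pb.isIntegral_gen)
    have hmem : ψ pb.gen ∈ ((minpoly K pb.gen).map (algebraMap K C)).roots := by
      rw [mem_roots h0, IsRoot, eval_map_algebraMap]
      exact hp
    rw [← ι.comp_algebraMap, ← Polynomial.map_map,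
      (IsAlgClosed.splits _).roots_map, Multiset.mem_map] at hmem
    obtain ⟨z, hz, e⟩ := hmem
    rw [mem_roots', IsRoot, eval_map_algebraMap] at hz
    have hcomp : ι.comp (pb.lift z hz.2) = ψ := pb.algHom_ext (by
      rw [AlgHom.comp_apply, pb.lift_gen]; exact e)
    refine ⟨⟨pb.lift z hz.2, fun h => hψ ?_⟩, Subtype.ext hcomp⟩
    rw [← hcomp, AlgHom.comp_apply, h, map_zero]

/-- The homomorphisms of `K[X]/(p)` with a condition at `g` are the roots with that condition. -/
theorem card_algHom_adjoinRoot {S : Type*} [Field S] [Algebra K S] (p g : K[X])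
    (P : S → Prop) :
    Nat.card {χ : AdjoinRoot p →ₐ[K] S // P (χ (AdjoinRoot.mk p g))} =
      Nat.card {x : S // aeval x p = 0 ∧ P (aeval x g)} := by
  have h0 : ∀ χ : AdjoinRoot p →ₐ[K] S, ∀ q : K[X],
      χ (AdjoinRoot.mk p q) = aeval (χ (AdjoinRoot.root p)) q := fun χ q => by
    rw [← AdjoinRoot.aeval_eq, aeval_algHom_apply]
  refine Nat.card_congr
    { toFun := fun χ => ⟨χ.1 (AdjoinRoot.root p),
        by rw [← h0, AdjoinRoot.mk_self, map_zero], by rw [← h0]; exact χ.2⟩
      invFun := fun x => ⟨AdjoinRoot.liftAlgHom p (Algebra.ofId K S) x.1 x.2.1, by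
        rw [h0, AdjoinRoot.liftAlgHom_root]; exact x.2.2⟩
      left_inv := fun χ => Subtype.ext (AdjoinRoot.algHom_ext (AdjoinRoot.liftAlgHom_root ..))
      right_inv := fun x => Subtype.ext (AdjoinRoot.liftAlgHom_root ..) }

/-- **Hermite and Sylvester for a polynomial.** -/
theorem traceQuad_roots {R : Type*} [Field R] [LinearOrder R] [IsStrictOrderedRing R]
    [IsRealClosed R] [Algebra K R] (hR : StrictMono (algebraMap K R)) {p : K[X]} (hp : p ≠ 0)
    (g : K[X]) :
    sigPos (traceQuad (AdjoinRoot.mk p g) : QuadraticForm K (AdjoinRoot p)) +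
          Nat.card {x : R // aeval x p = 0 ∧ aeval x g < 0} =
        sigNeg (traceQuad (AdjoinRoot.mk p g) : QuadraticForm K (AdjoinRoot p)) +
          Nat.card {x : R // aeval x p = 0 ∧ 0 < aeval x g} ∧
      sigPos (traceQuad (AdjoinRoot.mk p g) : QuadraticForm K (AdjoinRoot p)) +
          sigNeg (traceQuad (AdjoinRoot.mk p g) : QuadraticForm K (AdjoinRoot p)) =
        Nat.card {z : AlgebraicClosure K // aeval z p = 0 ∧ aeval z g ≠ 0} := by
  obtain ⟨h1, h2⟩ := traceQuad_signature R (AdjoinRoot.powerBasis hp) hR (AdjoinRoot.mk p g)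
  rw [card_algHom_adjoinRoot p g fun y => y < 0, card_algHom_adjoinRoot p g fun y => 0 < y] at h1
  rw [card_algHom_algClosed (AdjoinRoot.powerBasis hp),
    card_algHom_adjoinRoot p g fun y => y ≠ 0] at h2
  exact ⟨h1, h2⟩

variable {F : Type*} [Field F] [Algebra K F] [FiniteDimensional K F]

/-- **Sylvester and Scharlau**: the signature of the trace form counts the orderings. -/
theorem traceQuad_orderings (g : F) :
    sigPos (traceQuad g : QuadraticForm K F) +
          Nat.card {o : Extends K F // o.1.lt g 0} =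
        sigNeg (traceQuad g : QuadraticForm K F) + Nat.card {o : Extends K F // o.1.lt 0 g} ∧
      (g ≠ 0 → sigPos (traceQuad g : QuadraticForm K F) + sigNeg (traceQuad g : QuadraticForm K F) =
        Module.finrank K F) := by
  obtain ⟨R, _, _, _, _, hR⟩ := exists_realClosure K
  have := hR.realClosed
  let pb := Field.powerBasisOfFiniteOfSeparable K F
  obtain ⟨h1, h2⟩ := traceQuad_signature R pb hR.strictMono g
  have key : ∀ o : Extends K F, ∀ x y : F,
      o.1.lt x y ↔ extendsEquiv hR.strictMono o x < extendsEquiv hR.strictMono o y :=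
    fun o x y => by
    have h := (exists_unique_embedding_extends hR.strictMono o).choose_spec.1
    let _ : LinearOrder F := o.1
    exact h.lt_iff_lt.symm
  constructor
  · rw [Nat.card_congr ((extendsEquiv hR.strictMono).subtypeEquiv (p := fun o => o.1.lt g 0)
        (q := fun χ => χ g < 0) fun o => by rw [key, map_zero]),
      Nat.card_congr ((extendsEquiv hR.strictMono).subtypeEquiv (p := fun o => o.1.lt 0 g)
        (q := fun χ => 0 < χ g) fun o => by rw [key, map_zero])]
    exact h1
  · intro hg
    rw [h2, card_algHom_algClosed pb,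
      Nat.card_congr (Equiv.subtypeUnivEquiv fun ψ => (map_ne_zero ψ.toRingHom).2 hg),
      Nat.card_eq_fintype_card, AlgHom.card]

/-- **Sylvester**: `Tr (x ^ 2)` has as signature the number of orderings, and full rank. -/
theorem traceQuad_one :
    sigPos (traceQuad (1 : F) : QuadraticForm K F) =
        sigNeg (traceQuad (1 : F) : QuadraticForm K F) + Nat.card (Extends K F) ∧
      sigPos (traceQuad (1 : F) : QuadraticForm K F) +
          sigNeg (traceQuad (1 : F) : QuadraticForm K F) = Module.finrank K F := by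
  obtain ⟨h1, h2⟩ := traceQuad_orderings (K := K) (1 : F)
  refine ⟨?_, h2 one_ne_zero⟩
  have hpos : ∀ o : Extends K F, o.1.lt 0 1 := fun o => by
    let _ : LinearOrder F := o.1
    have : IsStrictOrderedRing F := o.2.1
    exact zero_lt_one
  have he : IsEmpty {o : Extends K F // o.1.lt 1 0} := ⟨fun ⟨o, ho⟩ => by
    let _ : LinearOrder F := o.1
    exact lt_asymm ho (hpos o)⟩
  rw [Nat.card_of_isEmpty, add_zero, Nat.card_congr (Equiv.subtypeUnivEquiv hpos)] at h1
  exact h1

theorem posDef_iff_sigNeg {M : Type*} [AddCommGroup M] [Module K M] [FiniteDimensional K M]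
    {Q : QuadraticForm K M} (h : sigPos Q + sigNeg Q = Module.finrank K M) :
    Q.PosDef ↔ sigNeg Q = 0 := by
  constructor
  · intro hQ
    have := le_sigPos_of_posDef Q (V := ⊤) fun x hx => hQ x.1 fun e => hx (Subtype.ext e)
    rw [finrank_top] at this
    omega
  · intro h0 x hx
    obtain ⟨V, hV, hpos⟩ := exists_finrank_eq_sigPos_and_posDef Q
    have hmem : x ∈ V := by
      rw [Submodule.eq_top_of_finrank_eq (S := V) (by omega)]
      trivial
    exact hpos ⟨x, hmem⟩ fun e => hx (congrArg Subtype.val e)

/-- **The trace form of a number field.** -/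
theorem traceQuad_numberField (F : Type*) [Field F] [NumberField F] :
    sigPos (traceQuad (1 : F) : QuadraticForm ℚ F) =
        NumberField.InfinitePlace.nrRealPlaces F + NumberField.InfinitePlace.nrComplexPlaces F ∧
      sigNeg (traceQuad (1 : F) : QuadraticForm ℚ F) =
        NumberField.InfinitePlace.nrComplexPlaces F ∧
      ((traceQuad (1 : F) : QuadraticForm ℚ F).PosDef ↔ NumberField.IsTotallyReal F) := by
  obtain ⟨h1, h2⟩ := traceQuad_one (K := ℚ) (F := F)
  have he : Nat.card (Extends ℚ F) = NumberField.InfinitePlace.nrRealPlaces F := by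
    rw [← card_orderings_numberField F]
    refine Nat.card_congr (Equiv.subtypeEquivRight fun o => ⟨fun h => h.1, fun h => ⟨h, ?_⟩⟩)
    let _ : LinearOrder F := o
    intro a b hab
    rw [eq_ratCast, eq_ratCast]
    exact Rat.cast_lt.2 hab
  have hr := NumberField.InfinitePlace.card_add_two_mul_card_eq_rank F
  rw [he] at h1
  refine ⟨by omega, by omega, ?_⟩
  rw [posDef_iff_sigNeg h2, ← NumberField.nrComplexPlaces_eq_zero_iff]
  omega

end Fermat.Agent.TraceSignature
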