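import Fermat.Agent.TraceSignature.Hermite
import Fermat.Agent.RealClosure.Uniqueness

/-!
# The signature of a trace form
-/

set_option autoImplicit false
set_option linter.unusedSectionVars false

noncomputable section

open Polynomial FA.Pfister QuadraticMap QuadraticForm

namespace Fermat.Agent.TraceSignature

open Fermat.Agent.HilbertSeventeen Fermat.Agent.RealClosure

variable {K : Type*} [Field K] [LinearOrder K] [IsStrictOrderedRing K]
variable {A : Type*} [CommRing A] [Algebra K A]
variable (R : Type*) [Field R] [LinearOrder R] [IsStrictOrderedRing R] [IsRealClosed R]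
  [Algebra K R] (pb : PowerBasis K A)

theorem traceQuad_apply (g x : A) : traceQuad g x = Algebra.trace K A (g * x * x) := rfl

/-- A basis in which the trace form is diagonal. -/
theorem exists_diagonal (g : A) [Module.Finite K A] :
    ∃ b : Module.Basis (Fin (Module.finrank K A)) K A,
      (∀ i j, i ≠ j → Algebra.trace K A (g * b i * b j) = 0) ∧
      (traceQuad g).Equivalent
        (weightedSumSquares K fun i => Algebra.trace K A (g * b i * b i)) := by
  classical
  have : Invertible (2 : K) := invertibleOfNonzero two_ne_zero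
  obtain ⟨b, hb⟩ := LinearMap.BilinForm.exists_orthogonal_basis (B := traceBilin g)
    ⟨fun x y => by
      show Algebra.trace K A (g * x * y) = Algebra.trace K A (g * y * x)
      rw [mul_right_comm]⟩
  have horth : ∀ i j, i ≠ j → Algebra.trace K A (g * b i * b j) = 0 := fun i j h => hb h
  refine ⟨b, horth, ⟨{ toLinearEquiv := b.equivFun, map_app' := fun x => ?_ }⟩⟩
  show weightedSumSquares K (fun i => Algebra.trace K A (g * b i * b i)) (b.equivFun x) =
    traceQuad g x
  rw [weightedSumSquares_apply, traceQuad_apply]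
  conv_rhs => rw [← b.sum_equivFun x]
  simp only [Finset.mul_sum, Finset.sum_mul, map_sum]
  refine Finset.sum_congr rfl fun i _ => ?_
  rw [Finset.sum_eq_single i (fun k _ hk => ?_) (fun hi => absurd (Finset.mem_univ i) hi)]
  · simp only [mul_smul_comm, smul_mul_assoc, map_smul, smul_eq_mul]
    ring
  · simp only [mul_smul_comm, smul_mul_assoc, map_smul, smul_eq_mul, horth k i hk, mul_zero]

theorem algebraMap_two_re_mul (g : A) (ψ : A →ₐ[K] Gauss R) (z : Gauss R) (h : ψ g ≠ 0) :
    algebraMap R (Gauss R)
      (2 * (rePart (pairRoot R pb g ψ * z) * rePart (pairRoot R pb g ψ * z)) -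
        2 * (imPart (pairRoot R pb g ψ * z) * imPart (pairRoot R pb g ψ * z))) =
      (mult R pb ψ : Gauss R) * ψ g * (z * z) +
        conjGauss ((mult R pb ψ : Gauss R) * ψ g * (z * z)) := by
  classical
  have h2 : pairRoot R pb g ψ ^ 2 = (mult R pb ψ : Gauss R) * ψ g := by
    rw [pairRoot, if_neg h]
    exact (IsAlgClosed.exists_pow_nat_eq _ zero_lt_two).choose_spec
  rw [← sq_add_conj_sq, show pairRoot R pb g ψ * z * (pairRoot R pb g ψ * z) =
    pairRoot R pb g ψ ^ 2 * (z * z) by ring, h2]

/-- The weighted squares, computed over `R(√-1)`. -/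
theorem sum_pieces (g : A) [Fintype (A →ₐ[K] Gauss R)] [Fintype (A →ₐ[K] R)]
    [Fintype (Upper R pb)] {ι : Type*} [Fintype ι] (v : ι → A) (c : ι → R) :
    algebraMap R (Gauss R)
        (∑ j, pieceWeight R pb g j * (pieceMap R pb v g c j * pieceMap R pb v g c j)) =
      ∑ ψ, (mult R pb ψ : Gauss R) * ψ g * (valueAt R v ψ c * valueAt R v ψ c) := by
  classical
  rw [← (kindsEquiv R pb).sum_comp
      fun ψ => (mult R pb ψ : Gauss R) * ψ g * (valueAt R v ψ c * valueAt R v ψ c),
    Fintype.sum_sum_type, Fintype.sum_sum_type, map_add, Fintype.sum_sum_type,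
    Fintype.sum_sum_type, map_sum, map_add, map_sum, map_sum, ← Finset.sum_add_distrib,
    ← Finset.sum_add_distrib]
  congr 1 <;> refine Finset.sum_congr rfl fun x _ => ?_
  · show algebraMap R (Gauss R) ((mult R pb (ofRealHom R x) : R) * x g *
        (rePart (valueAt R v (ofRealHom R x) c) * rePart (valueAt R v (ofRealHom R x) c))) =
      (mult R pb (ofRealHom R x) : Gauss R) * ofRealHom R x g *
        (valueAt R v (ofRealHom R x) c * valueAt R v (ofRealHom R x) c)
    have e : valueAt R v (ofRealHom R x) c =
        algebraMap R (Gauss R) (∑ i, c i * x (v i)) := by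
      simp only [valueAt_apply, ofRealHom_apply, map_sum, map_mul]
    rw [e, rePart_algebraMap, map_mul, map_mul, map_mul, map_natCast, ofRealHom_apply]
  · show algebraMap R (Gauss R) ((if x.1 g = 0 then 0 else 2) *
          (rePart (pairRoot R pb g x.1 * valueAt R v x.1 c) *
            rePart (pairRoot R pb g x.1 * valueAt R v x.1 c))) +
        algebraMap R (Gauss R) ((if x.1 g = 0 then 0 else -2) *
          (imPart (pairRoot R pb g x.1 * valueAt R v x.1 c) *
            imPart (pairRoot R pb g x.1 * valueAt R v x.1 c))) =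
      (mult R pb x.1 : Gauss R) * x.1 g * (valueAt R v x.1 c * valueAt R v x.1 c) +
        (mult R pb (conjHom R x.1) : Gauss R) * conjHom R x.1 g *
          (valueAt R v (conjHom R x.1) c * valueAt R v (conjHom R x.1) c)
    rw [mult_conjHom, valueAt_conj, conjHom_apply, ← map_add]
    by_cases h : x.1 g = 0
    · simp [h]
    · rw [if_neg h, if_neg h, neg_mul, ← sub_eq_add_neg, algebraMap_two_re_mul R pb g x.1 _ h,
        map_mul conjGauss, map_mul conjGauss, map_mul conjGauss, map_natCast]

/-- **Hermite and Sylvester**: the signature of the trace form of `g`. -/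
theorem sigPos_sigNeg_traceQuad (hR : StrictMono (algebraMap K R)) (g : A) :
    sigPos (traceQuad g : QuadraticForm K A) =
        Nat.card {χ : A →ₐ[K] R // 0 < χ g} + Nat.card {ψ : Upper R pb // ψ.1 g ≠ 0} ∧
      sigNeg (traceQuad g : QuadraticForm K A) =
        Nat.card {χ : A →ₐ[K] R // χ g < 0} + Nat.card {ψ : Upper R pb // ψ.1 g ≠ 0} := by
  classical
  have := pb.finite
  have := finite_algHom pb (Gauss R)
  have := finite_algHom pb R
  have := Fintype.ofFinite (A →ₐ[K] Gauss R)
  have := Fintype.ofFinite (A →ₐ[K] R)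
  obtain ⟨b, hb, heq⟩ := exists_diagonal (K := K) g
  set w := fun i => Algebra.trace K A (g * b i * b i) with hw
  have hcomp : weightedSumSquares R (fun i => algebraMap K R (w i)) =
      (weightedSumSquares R (pieceWeight R pb g)).comp (pieceMap R pb b g) := by
    ext c
    apply (algebraMap R (Gauss R)).injective
    simp only [QuadraticMap.comp_apply, weightedSumSquares_apply, smul_eq_mul]
    rw [sum_pieces, map_sum]
    simp only [valueAt_apply, Finset.mul_sum, Finset.sum_mul]
    rw [Finset.sum_comm]
    refine Finset.sum_congr rfl fun i _ => ?_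
    rw [Finset.sum_comm, Finset.sum_eq_single i (fun k _ hk => ?_)
      (fun hi => absurd (Finset.mem_univ i) hi)]
    · rw [map_mul, map_mul, ← IsScalarTower.algebraMap_apply, hw, algebraMap_trace R pb,
        Finset.sum_mul]
      refine Finset.sum_congr rfl fun ψ _ => ?_
      rw [map_mul, map_mul]
      ring
    · have e : ∀ ψ : A →ₐ[K] Gauss R, (mult R pb ψ : Gauss R) * ψ g *
          (algebraMap R (Gauss R) (c k) * ψ (b k) * (algebraMap R (Gauss R) (c i) * ψ (b i))) =
          algebraMap R (Gauss R) (c k * c i) *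
            ((mult R pb ψ : Gauss R) * ψ (g * b k * b i)) := fun ψ => by
        simp only [map_mul]; ring
      simp only [e, ← Finset.mul_sum, ← algebraMap_trace R pb, hb k i hk, map_zero, mul_zero]
  have hsurj := pieceMap_surjective R pb g b
  have hpos : {i | 0 < w i} = {i | 0 < algebraMap K R (w i)} := Set.ext fun i => by
    have := hR.lt_iff_lt (a := 0) (b := w i); rw [map_zero] at this; exact this.symm
  have hneg : {i | w i < 0} = {i | algebraMap K R (w i) < 0} := Set.ext fun i => by
    have := hR.lt_iff_lt (a := w i) (b := 0); rw [map_zero] at this; exact this.symm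
  have hm : ∀ χ : A →ₐ[K] R, 0 < (mult R pb (ofRealHom R χ) : R) := fun χ =>
    Nat.cast_pos.2 (mult_pos R pb _)
  have : IsEmpty {b : Upper R pb // Sum.inr (Sum.inr b) ∈ {j | 0 < pieceWeight R pb g j}} :=
    ⟨fun ⟨ψ, hψ⟩ => by
      simp only [Set.mem_ofPred_eq, pieceWeight] at hψ
      split_ifs at hψ <;> linarith⟩
  have : IsEmpty {b : Upper R pb // Sum.inr (Sum.inl b) ∈ {j | pieceWeight R pb g j < 0}} :=
    ⟨fun ⟨ψ, hψ⟩ => by
      simp only [Set.mem_ofPred_eq, pieceWeight] at hψ
      split_ifs at hψ <;> linarith⟩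
  constructor
  · rw [sigPos_of_equiv_weightedSumSquares heq, hpos, ← sigPos_weightedSumSquares, hcomp,
      sigPos_comp_of_surjective _ _ hsurj, sigPos_weightedSumSquares,
      ← Nat.card_coe_set_eq, ← Nat.card_sum]
    refine Nat.card_congr (Equiv.subtypeSum.trans (Equiv.sumCongr
      (Equiv.subtypeEquivRight fun χ => mul_pos_iff_of_pos_left (hm χ))
      ((Equiv.subtypeSum.trans (Equiv.sumCongr (Equiv.subtypeEquivRight fun ψ => ?_)
        (Equiv.equivEmpty _))).trans (Equiv.sumEmpty _ _))))
    · simp only [Set.mem_ofPred_eq, pieceWeight]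
      split_ifs with h <;> simp [h]
  · rw [sigNeg_of_equiv_weightedSumSquares heq, hneg, ← sigNeg_weightedSumSquares, hcomp,
      sigNeg_comp_of_surjective _ _ hsurj, sigNeg_weightedSumSquares,
      ← Nat.card_coe_set_eq, ← Nat.card_sum]
    refine Nat.card_congr (Equiv.subtypeSum.trans (Equiv.sumCongr
      (Equiv.subtypeEquivRight fun χ => ?_)
      ((Equiv.subtypeSum.trans (Equiv.sumCongr (Equiv.equivEmpty _)
        (Equiv.subtypeEquivRight fun ψ => ?_))).trans (Equiv.emptySum _ _))))
    · simp only [Set.mem_ofPred_eq, pieceWeight]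
      exact ⟨fun h => by nlinarith [hm χ], fun h => mul_neg_of_pos_of_neg (hm χ) h⟩
    · simp only [Set.mem_ofPred_eq, pieceWeight]
      split_ifs with h <;> simp [h]

include pb in
/-- The signature is the difference of the counts over the real homomorphisms, the rank the number
of homomorphisms at which `g` does not vanish. -/
theorem traceQuad_signature (hR : StrictMono (algebraMap K R)) (g : A) :
    sigPos (traceQuad g : QuadraticForm K A) + Nat.card {χ : A →ₐ[K] R // χ g < 0} =
        sigNeg (traceQuad g : QuadraticForm K A) + Nat.card {χ : A →ₐ[K] R // 0 < χ g} ∧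
      sigPos (traceQuad g : QuadraticForm K A) + sigNeg (traceQuad g : QuadraticForm K A) =
        Nat.card {ψ : A →ₐ[K] Gauss R // ψ g ≠ 0} := by
  classical
  obtain ⟨h1, h2⟩ := sigPos_sigNeg_traceQuad R pb hR g
  refine ⟨by omega, ?_⟩
  have := finite_algHom pb (Gauss R)
  have := finite_algHom pb R
  have e : Nat.card {ψ : A →ₐ[K] Gauss R // ψ g ≠ 0} = Nat.card {χ : A →ₐ[K] R // χ g ≠ 0} +
      (Nat.card {ψ : Upper R pb // ψ.1 g ≠ 0} + Nat.card {ψ : Upper R pb // ψ.1 g ≠ 0}) := by
    rw [← Nat.card_sum, ← Nat.card_sum]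
    refine Nat.card_congr (((kindsEquiv R pb).subtypeEquiv fun j => Iff.rfl).symm.trans
      (Equiv.subtypeSum.trans (Equiv.sumCongr
        (Equiv.subtypeEquivRight fun χ => ?_) (Equiv.subtypeSum.trans (Equiv.sumCongr
          (Equiv.subtypeEquivRight fun ψ => Iff.rfl)
          (Equiv.subtypeEquivRight fun ψ => ?_))))))
    · exact map_ne_zero_iff _ (algebraMap R (Gauss R)).injective
    · exact map_ne_zero_iff _ (Function.LeftInverse.injective conj_conj)
  have e' : Nat.card {χ : A →ₐ[K] R // χ g ≠ 0} =
      Nat.card {χ : A →ₐ[K] R // 0 < χ g} + Nat.card {χ : A →ₐ[K] R // χ g < 0} := by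
    rw [← Nat.card_sum]
    refine Nat.card_congr ((Equiv.subtypeEquivRight fun χ => ?_).trans
      (subtypeOrEquiv _ _ (Pi.disjoint_iff.2 fun χ => Prop.disjoint_iff.2
        (fun h => absurd h.2 h.1.not_gt))))
    rw [ne_iff_lt_or_gt, or_comm]
  omega

end Fermat.Agent.TraceSignature
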