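import Fermat.Agent.HilbertSeventeen.RealClosedFTA

/-!
# Real and imaginary parts over a real closed field
-/

set_option autoImplicit false

noncomputable section

open Polynomial FA.Pfister

namespace Fermat.Agent.TraceSignature

open Fermat.Agent.HilbertSeventeen

variable {R : Type*} [Field R] [IsRealClosed R]

instance factGauss : Fact (Irreducible (X ^ 2 + 1 : R[X])) :=
  ⟨irreducible_gauss not_isSquare_neg_one⟩

instance isAlgClosedGauss : IsAlgClosed (Gauss R) :=
  isAlgClosed_gauss

/-- `√-1`. -/
def imUnit : Gauss R :=
  AdjoinRoot.root _

theorem imUnit_mul_self : (imUnit : Gauss R) * imUnit = -1 := by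
  rw [← sq]; exact root_sq

/-- The real part. -/
def rePart (z : Gauss R) : R :=
  (exists_coords z).choose

/-- The imaginary part. -/
def imPart (z : Gauss R) : R :=
  (exists_coords z).choose_spec.choose

theorem eq_re_add_im (z : Gauss R) :
    z = algebraMap R (Gauss R) (rePart z) + algebraMap R (Gauss R) (imPart z) * imUnit :=
  (exists_coords z).choose_spec.choose_spec

theorem coords_unique {z : Gauss R} {a b : R}
    (h : z = algebraMap R (Gauss R) a + algebraMap R (Gauss R) b * imUnit) :
    rePart z = a ∧ imPart z = b := by
  have h' := (eq_re_add_im z).symm.trans h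
  simp only [AdjoinRoot.algebraMap_eq, imUnit] at h'
  have := coords_eq_zero (F := R) not_isSquare_neg_one (a := rePart z - a) (b := imPart z - b) (by
    rw [map_sub, map_sub]
    linear_combination h')
  exact ⟨sub_eq_zero.1 this.1, sub_eq_zero.1 this.2⟩

@[simp] theorem rePart_algebraMap (a : R) : rePart (algebraMap R (Gauss R) a) = a :=
  (coords_unique (b := 0) (by rw [map_zero, zero_mul, add_zero])).1

@[simp] theorem imPart_algebraMap (a : R) : imPart (algebraMap R (Gauss R) a) = 0 :=
  (coords_unique (a := a) (by rw [map_zero, zero_mul, add_zero])).2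

theorem eq_algebraMap_of_imPart {z : Gauss R} (h : imPart z = 0) :
    z = algebraMap R (Gauss R) (rePart z) := by
  conv_lhs => rw [eq_re_add_im z, h, map_zero, zero_mul, add_zero]

/-- The real part as a linear map. -/
def reLin : Gauss R →ₗ[R] R where
  toFun := rePart
  map_add' x y := (coords_unique (b := imPart x + imPart y) (by
    rw [map_add, map_add]
    linear_combination eq_re_add_im x + eq_re_add_im y)).1
  map_smul' c x := (coords_unique (b := c * imPart x) (by
    rw [Algebra.smul_def, RingHom.id_apply, smul_eq_mul, map_mul, map_mul]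
    linear_combination algebraMap R (Gauss R) c * eq_re_add_im x)).1

/-- The imaginary part as a linear map. -/
def imLin : Gauss R →ₗ[R] R where
  toFun := imPart
  map_add' x y := (coords_unique (a := rePart x + rePart y) (by
    rw [map_add, map_add]
    linear_combination eq_re_add_im x + eq_re_add_im y)).2
  map_smul' c x := (coords_unique (a := c * rePart x) (by
    rw [Algebra.smul_def, RingHom.id_apply, smul_eq_mul, map_mul, map_mul]
    linear_combination algebraMap R (Gauss R) c * eq_re_add_im x)).2

/-- Conjugation. -/
def conjGauss : Gauss R →ₐ[R] Gauss R :=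
  AdjoinRoot.liftAlgHom _ (Algebra.ofId R _) (-imUnit)
    (by
      simp [sq, imUnit_mul_self])

theorem conj_imUnit : conjGauss (imUnit : Gauss R) = -imUnit :=
  AdjoinRoot.liftAlgHom_root ..

theorem coords_conj (z : Gauss R) :
    rePart (conjGauss z) = rePart z ∧ imPart (conjGauss z) = -imPart z :=
  coords_unique (by
    conv_lhs => rw [eq_re_add_im z]
    simp only [map_add, map_mul, AlgHom.commutes, conj_imUnit, map_neg]
    ring)

theorem conj_conj (z : Gauss R) : conjGauss (conjGauss z) = z := by
  rw [eq_re_add_im (conjGauss (conjGauss z)), (coords_conj _).1, (coords_conj z).1,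
    (coords_conj _).2, (coords_conj z).2, neg_neg]
  exact (eq_re_add_im z).symm

theorem add_conj (z : Gauss R) : z + conjGauss z = algebraMap R (Gauss R) (2 * rePart z) := by
  conv_lhs => rw [eq_re_add_im z, eq_re_add_im (conjGauss _)]
  rw [← eq_re_add_im z, (coords_conj z).1, (coords_conj z).2, map_neg, map_mul, map_ofNat]
  linear_combination eq_re_add_im z

theorem sq_add_conj_sq (z : Gauss R) :
    z * z + conjGauss (z * z) =
      algebraMap R (Gauss R) (2 * (rePart z * rePart z) - 2 * (imPart z * imPart z)) := by
  rw [add_conj, (coords_unique (a := rePart z * rePart z - imPart z * imPart z)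
    (b := 2 * (rePart z * imPart z)) (z := z * z) (by
    conv_lhs => rw [eq_re_add_im z]
    simp only [map_sub, map_mul, map_ofNat]
    linear_combination algebraMap R (Gauss R) (imPart z) * algebraMap R (Gauss R) (imPart z) *
      imUnit_mul_self (R := R))).1]
  congr 1
  ring

end Fermat.Agent.TraceSignature
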