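import Mathlib

/-!
# Signatures along surjections

A quadratic form pulled back along a surjective linear map keeps its signature.
-/

set_option autoImplicit false

noncomputable section

open QuadraticMap

namespace Fermat.Agent.TraceSignature

variable {𝕜 M M' : Type*} [Field 𝕜] [LinearOrder 𝕜] [AddCommGroup M] [Module 𝕜 M]
  [AddCommGroup M'] [Module 𝕜 M'] [FiniteDimensional 𝕜 M] [FiniteDimensional 𝕜 M']

theorem sigPos_comp_of_surjective (W : QuadraticForm 𝕜 M') (T : M →ₗ[𝕜] M')
    (hT : Function.Surjective T) : sigPos (W.comp T) = sigPos W := by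
  obtain ⟨S, hS⟩ := LinearMap.exists_rightInverse_of_surjective T (LinearMap.range_eq_top.2 hT)
  have hTS : ∀ y, T (S y) = y := LinearMap.congr_fun hS
  refine le_antisymm ?_ ?_
  · obtain ⟨V, hV, hpos⟩ := exists_finrank_eq_sigPos_and_posDef (W.comp T)
    have hinj : Function.Injective (T.comp V.subtype) := by
      rw [injective_iff_map_eq_zero]
      intro x hx
      by_contra hne
      have := hpos x hne
      rw [restrict_apply, QuadraticMap.comp_apply, show T (x : M) = 0 from hx, map_zero] at this
      exact lt_irrefl _ this
    rw [← hV]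
    calc Module.finrank 𝕜 V = Module.finrank 𝕜 (LinearMap.range (T.comp V.subtype)) :=
          (LinearMap.finrank_range_of_inj hinj).symm
      _ ≤ sigPos W := le_sigPos_of_posDef W fun ⟨y, x, hx⟩ hne => by
          subst hx
          exact hpos x fun e => hne (by subst e; exact Subtype.ext (map_zero _))
  · obtain ⟨V, hV, hpos⟩ := exists_finrank_eq_sigPos_and_posDef W
    have hinj : Function.Injective (S.comp V.subtype) :=
      (Function.LeftInverse.injective hTS).comp V.injective_subtype
    rw [← hV]
    calc Module.finrank 𝕜 V = Module.finrank 𝕜 (LinearMap.range (S.comp V.subtype)) :=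
          (LinearMap.finrank_range_of_inj hinj).symm
      _ ≤ sigPos (W.comp T) := le_sigPos_of_posDef _ fun ⟨y, x, hx⟩ hne => by
          subst hx
          show 0 < W (T (S (x : M')))
          rw [hTS]
          exact hpos x fun e => hne (by subst e; exact Subtype.ext (map_zero _))

theorem sigNeg_comp_of_surjective (W : QuadraticForm 𝕜 M') (T : M →ₗ[𝕜] M')
    (hT : Function.Surjective T) : sigNeg (W.comp T) = sigNeg W := by
  rw [← sigPos_neg, ← sigPos_neg, ← sigPos_comp_of_surjective (-W) T hT]
  congr 1

end Fermat.Agent.TraceSignature
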