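import Fermat.Agent.TraceSignature.TraceRoots
import Fermat.Agent.TraceSignature.Pullback
import Fermat.Agent.TraceSignature.Gauss

/-!
# The theorem of Hermite and Sylvester

The trace form of `g` in a monogenic algebra over an ordered field is a sum over the homomorphisms
to `R(√-1)`: one square for each real one, with the sign of `g` there, and a hyperbolic plane for
each pair of conjugates at which `g` does not vanish.
-/

set_option autoImplicit false
set_option linter.unusedSectionVars false

noncomputable section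

open Polynomial FA.Pfister QuadraticMap QuadraticForm

namespace Fermat.Agent.TraceSignature

open Fermat.Agent.HilbertSeventeen

variable {K : Type*} [Field K] [LinearOrder K] [IsStrictOrderedRing K]
variable {A : Type*} [CommRing A] [Algebra K A]
variable (R : Type*) [Field R] [LinearOrder R] [IsStrictOrderedRing R] [IsRealClosed R]
  [Algebra K R] (pb : PowerBasis K A)

instance charZeroGauss : CharZero (Gauss R) :=
  charZero_of_injective_algebraMap (algebraMap R (Gauss R)).injective

/-- The bilinear trace form of `g`. -/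
def traceBilin (g : A) : LinearMap.BilinForm K A :=
  LinearMap.mk₂ K (fun x y => Algebra.trace K A (g * x * y))
    (fun x x' y => by rw [mul_add, add_mul, map_add])
    (fun c x y => by rw [mul_smul_comm, smul_mul_assoc, map_smul])
    (fun x y y' => by rw [mul_add, map_add])
    (fun c x y => by rw [mul_smul_comm, map_smul])

/-- The trace form `x ↦ Tr (g x²)`. -/
def traceQuad (g : A) : QuadraticForm K A :=
  (traceBilin g).toQuadraticMap

/-- The multiplicity of the root of a homomorphism. -/
def mult (ψ : A →ₐ[K] Gauss R) : ℕ := by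
  classical
  exact ((minpoly K pb.gen).map (algebraMap K (Gauss R))).roots.count (ψ pb.gen)

include pb in
theorem finite_algHom (S : Type*) [CommRing S] [IsDomain S] [Algebra K S] :
    Finite (A →ₐ[K] S) := by
  classical
  exact Finite.of_equiv _ pb.liftEquiv'.symm

theorem aeval_gen_eq_zero {S : Type*} [CommRing S] [Algebra K S] (ψ : A →ₐ[K] S) :
    aeval (ψ pb.gen) (minpoly K pb.gen) = 0 := by
  rw [aeval_algHom_apply, minpoly.aeval, map_zero]

theorem mult_pos (ψ : A →ₐ[K] Gauss R) : 0 < mult R pb ψ := by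
  classical
  rw [mult, Multiset.count_pos, mem_roots (Polynomial.map_ne_zero
    (minpoly.ne_zero pb.isIntegral_gen)), IsRoot, eval_map_algebraMap]
  exact aeval_gen_eq_zero pb ψ

/-- The trace is the sum over the homomorphisms. -/
theorem algebraMap_trace [Fintype (A →ₐ[K] Gauss R)] (x : A) :
    algebraMap K (Gauss R) (Algebra.trace K A x) = ∑ ψ, (mult R pb ψ : Gauss R) * ψ x := by
  classical
  obtain ⟨f, rfl⟩ := pb.exists_eq_aeval' x
  rw [map_trace_aeval pb (algebraMap K (Gauss R)) f,
    Finset.sum_multiset_map_count]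
  refine (Finset.sum_nbij (fun ψ : A →ₐ[K] Gauss R => ψ pb.gen) (fun ψ _ => ?_)
    (fun ψ _ ψ' _ e => pb.algHom_ext e) (fun z hz => ?_) fun ψ _ => ?_).symm
  · rw [Multiset.mem_toFinset, mem_roots (Polynomial.map_ne_zero
      (minpoly.ne_zero pb.isIntegral_gen)), IsRoot, eval_map_algebraMap]
    exact aeval_gen_eq_zero pb ψ
  · rw [Finset.mem_coe, Multiset.mem_toFinset, mem_roots', IsRoot, eval_map_algebraMap] at hz
    exact ⟨pb.lift z hz.2, Finset.mem_coe.2 (Finset.mem_univ _), pb.lift_gen z hz.2⟩
  · rw [nsmul_eq_mul, ← aeval_algHom_apply]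
    rfl

/-- The composite with conjugation. -/
def conjHom (ψ : A →ₐ[K] Gauss R) : A →ₐ[K] Gauss R :=
  ((conjGauss (R := R)).restrictScalars K).comp ψ

theorem conjHom_apply (ψ : A →ₐ[K] Gauss R) (x : A) : conjHom R ψ x = conjGauss (ψ x) := rfl

theorem mult_conjHom (ψ : A →ₐ[K] Gauss R) : mult R pb (conjHom R ψ) = mult R pb ψ := by
  classical
  rw [mult, mult, count_roots, count_roots, conjHom_apply]
  rw [eq_rootMultiplicity_map (f := ((conjGauss (R := R)).restrictScalars K : Gauss R →+* Gauss R))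
    (Function.LeftInverse.injective conj_conj) (ψ pb.gen), Polynomial.map_map,
    AlgHom.comp_algebraMap]
  rfl

/-- A real homomorphism as a complex one. -/
def ofRealHom (χ : A →ₐ[K] R) : A →ₐ[K] Gauss R :=
  (IsScalarTower.toAlgHom K R (Gauss R)).comp χ

theorem ofRealHom_apply (χ : A →ₐ[K] R) (x : A) :
    ofRealHom R χ x = algebraMap R (Gauss R) (χ x) := rfl

/-- The homomorphisms with the generator in the upper half plane. -/
abbrev Upper : Type _ :=
  {ψ : A →ₐ[K] Gauss R // 0 < imPart (ψ pb.gen)}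

/-- The three kinds of homomorphisms. -/
def kinds : (A →ₐ[K] R) ⊕ (Upper R pb ⊕ Upper R pb) → (A →ₐ[K] Gauss R)
  | Sum.inl χ => ofRealHom R χ
  | Sum.inr (Sum.inl ψ) => ψ.1
  | Sum.inr (Sum.inr ψ) => conjHom R ψ.1

theorem bijective_kinds : Function.Bijective (kinds R pb) := by
  have him : ∀ ψ : Upper R pb, imPart (conjHom R ψ.1 pb.gen) < 0 := fun ψ => by
    rw [conjHom_apply, (coords_conj _).2, neg_lt_zero]
    exact ψ.2
  have hre : ∀ χ : A →ₐ[K] R, imPart (ofRealHom R χ pb.gen) = 0 := fun χ => imPart_algebraMap _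
  refine ⟨?_, fun ψ => ?_⟩
  · rintro (χ | ψ | ψ) (χ' | ψ' | ψ') e <;>
      have e' := congrArg (fun φ : A →ₐ[K] Gauss R => imPart (φ pb.gen)) e <;>
      simp only [kinds] at e e'
    · exact congrArg Sum.inl (AlgHom.ext fun x => (algebraMap R (Gauss R)).injective
        (DFunLike.congr_fun e x))
    · linarith [hre χ, ψ'.2]
    · linarith [hre χ, him ψ']
    · linarith [hre χ', ψ.2]
    · exact congrArg (fun z => Sum.inr (Sum.inl z)) (Subtype.ext e)
    · linarith [ψ.2, him ψ']
    · linarith [hre χ', him ψ]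
    · linarith [ψ'.2, him ψ]
    · refine congrArg (fun z => Sum.inr (Sum.inr z)) (Subtype.ext (AlgHom.ext fun x => ?_))
      have := congrArg conjGauss (DFunLike.congr_fun e x)
      rwa [conjHom_apply, conjHom_apply, conj_conj, conj_conj] at this
  · rcases lt_trichotomy (imPart (ψ pb.gen)) 0 with h | h | h
    · refine ⟨Sum.inr (Sum.inr ⟨conjHom R ψ, ?_⟩), AlgHom.ext fun x => ?_⟩
      · rw [conjHom_apply, (coords_conj _).2]
        linarith
      · show conjGauss (conjGauss (ψ x)) = ψ x
        rw [conj_conj]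
    · have hfix : conjHom R ψ = ψ := pb.algHom_ext (by
        rw [conjHom_apply]
        conv_lhs => rw [eq_algebraMap_of_imPart h, AlgHom.commutes]
        exact (eq_algebraMap_of_imPart h).symm)
      have hall : ∀ x, ψ x = algebraMap R (Gauss R) (rePart (ψ x)) := fun x => by
        refine eq_algebraMap_of_imPart ?_
        have := (coords_conj (ψ x)).2
        rw [← conjHom_apply, hfix] at this
        linarith
      refine ⟨Sum.inl (AlgHom.mk' ((RingHom.mk' ⟨⟨fun x => rePart (ψ x), ?_⟩, ?_⟩ ?_) : A →+* R)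
        ?_), AlgHom.ext fun x => (hall x).symm⟩
      · rw [map_one, ← map_one (algebraMap R (Gauss R)), rePart_algebraMap]
      · intro x y
        apply (algebraMap R (Gauss R)).injective
        rw [map_mul, ← hall, ← hall, ← hall, map_mul]
      · intro x y
        apply (algebraMap R (Gauss R)).injective
        show algebraMap R (Gauss R) (rePart (ψ (x + y))) =
          algebraMap R (Gauss R) (rePart (ψ x) + rePart (ψ y))
        rw [map_add (algebraMap R (Gauss R)), ← hall, ← hall, ← hall, map_add ψ]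
      · intro c x
        apply (algebraMap R (Gauss R)).injective
        show algebraMap R (Gauss R) (rePart (ψ (c • x))) =
          algebraMap R (Gauss R) (c • rePart (ψ x))
        rw [← hall, Algebra.smul_def c (rePart (ψ x)), map_mul, ← hall, map_smul,
          ← IsScalarTower.algebraMap_apply, Algebra.smul_def]
    · exact ⟨Sum.inr (Sum.inl ⟨ψ, h⟩), rfl⟩

/-- The homomorphisms by their kinds. -/
def kindsEquiv : (A →ₐ[K] R) ⊕ (Upper R pb ⊕ Upper R pb) ≃ (A →ₐ[K] Gauss R) :=
  Equiv.ofBijective _ (bijective_kinds R pb)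

open Classical in
/-- A square root of the weight at a pair, or one. -/
def pairRoot (g : A) (ψ : A →ₐ[K] Gauss R) : Gauss R :=
  if ψ g = 0 then 1
  else (IsAlgClosed.exists_pow_nat_eq ((mult R pb ψ : Gauss R) * ψ g) zero_lt_two).choose

theorem pairRoot_ne_zero (g : A) (ψ : A →ₐ[K] Gauss R) : pairRoot R pb g ψ ≠ 0 := by
  classical
  rw [pairRoot]
  split_ifs with h
  · exact one_ne_zero
  · intro e
    have h2 := (IsAlgClosed.exists_pow_nat_eq ((mult R pb ψ : Gauss R) * ψ g)
      zero_lt_two).choose_spec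
    rw [e, zero_pow two_ne_zero, eq_comm, mul_eq_zero] at h2
    exact h2.elim (Nat.cast_ne_zero.2 (mult_pos R pb ψ).ne') h

/-- The weights of the squares. -/
def pieceWeight (g : A) : (A →ₐ[K] R) ⊕ (Upper R pb ⊕ Upper R pb) → R
  | Sum.inl χ => (mult R pb (ofRealHom R χ) : R) * χ g
  | Sum.inr (Sum.inl ψ) => by classical exact if ψ.1 g = 0 then 0 else 2
  | Sum.inr (Sum.inr ψ) => by classical exact if ψ.1 g = 0 then 0 else -2

variable {ι : Type*} [Fintype ι] (v : ι → A)

/-- The value at `ψ` of a combination with coefficients in `R`. -/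
def valueAt (ψ : A →ₐ[K] Gauss R) : (ι → R) →ₗ[R] Gauss R :=
  ∑ i, (LinearMap.proj i : (ι → R) →ₗ[R] R).smulRight (ψ (v i))

theorem valueAt_apply (ψ : A →ₐ[K] Gauss R) (c : ι → R) :
    valueAt R v ψ c = ∑ i, algebraMap R (Gauss R) (c i) * ψ (v i) := by
  simp [valueAt, Algebra.smul_def]

theorem valueAt_conj (ψ : A →ₐ[K] Gauss R) (c : ι → R) :
    valueAt R v (conjHom R ψ) c = conjGauss (valueAt R v ψ c) := by
  rw [valueAt_apply, valueAt_apply, map_sum]
  exact Finset.sum_congr rfl fun i _ => by rw [map_mul, AlgHom.commutes]; rfl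

/-- The linear forms that are squared. -/
def pieceMap (g : A) : (ι → R) →ₗ[R] ((A →ₐ[K] R) ⊕ (Upper R pb ⊕ Upper R pb) → R) :=
  LinearMap.pi fun j => match j with
  | Sum.inl χ => reLin.comp (valueAt R v (ofRealHom R χ))
  | Sum.inr (Sum.inl ψ) =>
      reLin.comp ((LinearMap.mulLeft R (pairRoot R pb g ψ.1)).comp (valueAt R v ψ.1))
  | Sum.inr (Sum.inr ψ) =>
      imLin.comp ((LinearMap.mulLeft R (pairRoot R pb g ψ.1)).comp (valueAt R v ψ.1))

theorem pieceMap_surjective (g : A) [Fintype (A →ₐ[K] Gauss R)] [DecidableEq ι]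
    (b : Module.Basis ι K A) : Function.Surjective (pieceMap R pb b g) := by
  classical
  intro t
  set τ : (A →ₐ[K] Gauss R) → Gauss R := fun φ => match (kindsEquiv R pb).symm φ with
    | Sum.inl χ => algebraMap R (Gauss R) (t (Sum.inl χ))
    | Sum.inr (Sum.inl ψ) => (algebraMap R (Gauss R) (t (Sum.inr (Sum.inl ψ))) +
        algebraMap R (Gauss R) (t (Sum.inr (Sum.inr ψ))) * imUnit) / pairRoot R pb g ψ.1
    | Sum.inr (Sum.inr ψ) => conjGauss ((algebraMap R (Gauss R) (t (Sum.inr (Sum.inl ψ))) +
        algebraMap R (Gauss R) (t (Sum.inr (Sum.inr ψ))) * imUnit) / pairRoot R pb g ψ.1)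
    with hτ
  have hτk : ∀ j, τ (kindsEquiv R pb j) = match j with
    | Sum.inl χ => algebraMap R (Gauss R) (t (Sum.inl χ))
    | Sum.inr (Sum.inl ψ) => (algebraMap R (Gauss R) (t (Sum.inr (Sum.inl ψ))) +
        algebraMap R (Gauss R) (t (Sum.inr (Sum.inr ψ))) * imUnit) / pairRoot R pb g ψ.1
    | Sum.inr (Sum.inr ψ) => conjGauss ((algebraMap R (Gauss R) (t (Sum.inr (Sum.inl ψ))) +
        algebraMap R (Gauss R) (t (Sum.inr (Sum.inr ψ))) * imUnit) / pairRoot R pb g ψ.1) :=
    fun j => by simp [hτ]
  have hτc : ∀ φ, τ (conjHom R φ) = conjGauss (τ φ) := fun φ => by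
    obtain ⟨j, rfl⟩ := (kindsEquiv R pb).surjective φ
    rcases j with χ | ψ | ψ
    · rw [show conjHom R (kindsEquiv R pb (Sum.inl χ)) = kindsEquiv R pb (Sum.inl χ) from
        AlgHom.ext fun x => AlgHom.commutes (conjGauss (R := R)) (χ x), hτk]
      exact (AlgHom.commutes _ _).symm
    · rw [show conjHom R (kindsEquiv R pb (Sum.inr (Sum.inl ψ))) =
        kindsEquiv R pb (Sum.inr (Sum.inr ψ)) from rfl, hτk, hτk]
    · rw [show conjHom R (kindsEquiv R pb (Sum.inr (Sum.inr ψ))) =
        kindsEquiv R pb (Sum.inr (Sum.inl ψ)) from AlgHom.ext fun x => conj_conj _, hτk, hτk]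
      exact (conj_conj _).symm
  set h := Lagrange.interpolate Finset.univ (fun φ : A →ₐ[K] Gauss R => φ pb.gen) τ with hh
  have heval : ∀ φ : A →ₐ[K] Gauss R, h.eval (φ pb.gen) = τ φ := fun φ =>
    Lagrange.eval_interpolate_at_node τ (fun _ _ _ _ e => pb.algHom_ext e) (Finset.mem_univ φ)
  set N := h.natDegree + 1
  set c : ι → R := fun i =>
    ∑ k ∈ Finset.range N, rePart (h.coeff k) * algebraMap K R (b.repr (pb.gen ^ k) i)
  have hval : ∀ φ : A →ₐ[K] Gauss R, valueAt R b φ c = τ φ := fun φ => by
    have e1 : valueAt R b φ c = ∑ k ∈ Finset.range N,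
        algebraMap R (Gauss R) (rePart (h.coeff k)) * φ pb.gen ^ k := by
      rw [valueAt_apply]
      simp only [c, map_sum, map_mul, Finset.sum_mul]
      rw [Finset.sum_comm]
      refine Finset.sum_congr rfl fun k _ => ?_
      conv_rhs => rw [← map_pow, ← b.sum_repr (pb.gen ^ k), map_sum, Finset.mul_sum]
      refine Finset.sum_congr rfl fun i _ => ?_
      rw [map_smul, Algebra.smul_def, ← IsScalarTower.algebraMap_apply]
      ring
    have e2 : 2 * valueAt R b φ c = h.eval (φ pb.gen) +
        conjGauss (h.eval (conjHom R φ pb.gen)) := by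
      rw [e1, eval_eq_sum_range, eval_eq_sum_range, map_sum, ← Finset.sum_add_distrib,
        Finset.mul_sum]
      refine Finset.sum_congr rfl fun k _ => ?_
      rw [map_mul conjGauss, map_pow conjGauss, conjHom_apply, conj_conj, ← mul_assoc,
        ← add_mul, add_conj, map_mul, map_ofNat]
    rw [heval, heval, hτc, conj_conj, ← two_mul] at e2
    exact mul_left_cancel₀ two_ne_zero e2
  refine ⟨c, funext fun j => ?_⟩
  have hj := hval (kindsEquiv R pb j)
  rw [hτk] at hj
  rcases j with χ | ψ | ψ
  · show rePart (valueAt R b (ofRealHom R χ) c) = _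
    rw [show valueAt R b (ofRealHom R χ) c = _ from hj, rePart_algebraMap]
  · show rePart (pairRoot R pb g ψ.1 * valueAt R b ψ.1 c) = _
    rw [show valueAt R b ψ.1 c = _ from hj, mul_div_cancel₀ _ (pairRoot_ne_zero R pb g ψ.1)]
    exact (coords_unique rfl).1
  · have hj' := hval (kindsEquiv R pb (Sum.inr (Sum.inl ψ)))
    rw [hτk] at hj'
    show imPart (pairRoot R pb g ψ.1 * valueAt R b ψ.1 c) = _
    rw [show valueAt R b ψ.1 c = _ from hj',
      mul_div_cancel₀ _ (pairRoot_ne_zero R pb g ψ.1)]
    exact (coords_unique rfl).2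

end Fermat.Agent.TraceSignature
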