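import Mathlib

/-!
# Traces in a monogenic algebra as sums over roots

The determinant and the evaluation at the roots of the characteristic polynomial are multiplicative
in `f(M)`; they agree on linear factors, so the roots of the characteristic polynomial of `f(M)`
are the values of `f` at those of `M`.
-/

set_option autoImplicit false

noncomputable section

open Polynomial Matrix

namespace Fermat.Agent.TraceSignature

variable {C : Type*} [Field C] [IsAlgClosed C] {n : Type*} [Fintype n] [DecidableEq n]

/-- The determinant of a polynomial in a matrix. -/
theorem det_aeval_eq_prod (M : Matrix n n C) (h : C[X]) :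
    (aeval M h).det = (M.charpoly.roots.map h.eval).prod := by
  have hsplit : M.charpoly.Splits := IsAlgClosed.splits _
  have hcard : Multiset.card M.charpoly.roots = Fintype.card n := by
    rw [← hsplit.natDegree_eq_card_roots, charpoly_natDegree_eq_dim]
  set P : C[X] →* C :=
    Matrix.detMonoidHom.comp ((aeval M : C[X] →ₐ[C] Matrix n n C) : C[X] →* Matrix n n C)
  have hconst : ∀ c : C, P (Polynomial.C c) = (M.charpoly.roots.map (Polynomial.C c).eval).prod :=
    fun c => by simp [P, algebraMap_eq_diagonal, det_diagonal, hcard]
  have hlin : ∀ a : C, P (X - Polynomial.C a) =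
      (M.charpoly.roots.map (X - Polynomial.C a).eval).prod := fun a => by
    have e1 : (M - algebraMap C (Matrix n n C) a).det =
        (-1) ^ Fintype.card n * M.charpoly.eval a := by
      rw [Matrix.eval_charpoly, ← det_neg, neg_sub]
      rfl
    have e2 : M.charpoly.eval a = (M.charpoly.roots.map fun z => a - z).prod :=
      hsplit.eval_eq_prod_roots_of_monic (charpoly_monic M) a
    show (aeval M (X - Polynomial.C a)).det = _
    rw [map_sub, aeval_X, aeval_C, e1, e2, ← hcard]
    simp only [eval_sub, eval_X, eval_C]
    rw [← Multiset.card_map (fun z => a - z) M.charpoly.roots, ← Multiset.prod_map_neg,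
      Multiset.map_map]
    simp
  have key : ∀ S : Multiset C, P (S.map fun a => X - Polynomial.C a).prod =
      (M.charpoly.roots.map ((S.map fun a => X - Polynomial.C a).prod).eval).prod := fun S => by
    induction S using Multiset.induction_on with
    | empty => simp
    | cons a S ih =>
      rw [Multiset.map_cons, Multiset.prod_cons, map_mul, hlin, ih, ← Multiset.prod_map_mul]
      simp only [eval_mul]
  show P h = _
  rw [(IsAlgClosed.splits h).eq_prod_roots, map_mul, hconst, key, ← Multiset.prod_map_mul]
  simp only [eval_mul]

/-- The trace of a polynomial in a matrix. -/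
theorem trace_aeval_eq_sum (M : Matrix n n C) (f : C[X]) :
    (aeval M f).trace = (M.charpoly.roots.map f.eval).sum := by
  have e : (aeval M f).charpoly =
      ((M.charpoly.roots.map f.eval).map fun w => X - Polynomial.C w).prod := by
    refine Polynomial.funext fun t => ?_
    rw [Matrix.eval_charpoly, eval_multiset_prod, Multiset.map_map, Multiset.map_map,
      show (scalar n t - aeval M f) = aeval M (Polynomial.C t - f) by
        rw [map_sub, aeval_C]; rfl,
      det_aeval_eq_prod]
    congr 1
    exact Multiset.map_congr rfl fun z _ => by simp
  rw [trace_eq_sum_roots_charpoly_of_splits (IsAlgClosed.splits _), e,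
    roots_multiset_prod_X_sub_C]

/-- **The trace of a monogenic algebra is a sum over the roots**, with multiplicity. -/
theorem map_trace_aeval {K A : Type*} [Field K] [CommRing A] [Algebra K A] (pb : PowerBasis K A)
    (φ : K →+* C) (f : K[X]) :
    φ (Algebra.trace K A (aeval pb.gen f)) =
      (((minpoly K pb.gen).map φ).roots.map fun z => f.eval₂ φ z).sum := by
  classical
  set M := Algebra.leftMulMatrix pb.basis pb.gen
  rw [Algebra.trace_eq_matrix_trace pb.basis, ← aeval_algHom_apply, ← charpoly_leftMulMatrix,
    ← charpoly_map, show φ (trace (aeval M f)) = ((aeval M f).map φ.toAddMonoidHom).trace from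
      AddMonoidHom.map_trace φ.toAddMonoidHom _]
  have e : ((aeval M f).map φ.toAddMonoidHom) = aeval (M.map φ) (f.map φ) := by
    show φ.mapMatrix (aeval M f) = aeval (φ.mapMatrix M) (f.map φ)
    rw [aeval_def, aeval_def, eval₂_map, hom_eval₂]
    congr 1
    ext k i j
    simp [algebraMap_eq_diagonal, diagonal, apply_ite φ]
  rw [e, trace_aeval_eq_sum]
  simp [eval_map, M]

end Fermat.Agent.TraceSignature
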